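/-
S15 / Dict / Loc : definitions (`ψ₂`, smooth reduction, `c₄` of the quotient curve).
-/
import Fermat.Agent.S05.XOnly

set_option autoImplicit false

namespace Fermat.Agent.S15.Dict.Loc

open Fermat.Agent.S05.XOnly

variable {K : Type*} [Field K]

/-- `ψ₂ = 2y + a₁x + a₃` (junk `a₃` at the origin). -/
def psi2 (V : WeierstrassCurve K) (P : V.toAffine.Point) : K :=
  2 * yc P + V.a₁ * xc P + V.a₃

/-- `3x² + 2a₂x + a₄ - a₁y`. -/
def omega (V : WeierstrassCurve K) (P : V.toAffine.Point) : K :=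
  3 * xc P ^ 2 + 2 * V.a₂ * xc P + V.a₄ - V.a₁ * yc P

/-- The (integral, affine) point `P` has nonsingular reduction. -/
def Smooth {Γ₀ : Type*} [LinearOrderedCommGroupWithZero Γ₀] (v : Valuation K Γ₀)
    (V : WeierstrassCurve K) (P : V.toAffine.Point) : Prop :=
  v (psi2 V P) = 1 ∨ v (omega V P) = 1

/-- `c₄` of the quotient of `V` by `⟨Q⟩`, `Q` of order `N` (Vélu):
`c₄ + 120 ∑_{k=1}^{N-1} (6x_k² + b₂x_k + b₄)`. -/
def c4Iso [DecidableEq K] (V : WeierstrassCurve K) (N : ℕ) (Q : V.toAffine.Point) : K :=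
  V.c₄ + 120 * ∑ k ∈ Finset.Ico 1 N, (6 * xc (k • Q) ^ 2 + V.b₂ * xc (k • Q) + V.b₄)

end Fermat.Agent.S15.Dict.Loc
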