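/-
S15 / Dict / Loc : the predicate `InZeroComponentAt` of the frozen statement, for integral affine
points, in terms of valuations.
-/
import Fermat.Agent.S15.Dict.Loc.Defs
import Fermat.Prelude.Def_EllipticCurve_ZeroComponentAt

set_option autoImplicit false

open scoped WeierstrassCurve.Affine

namespace Fermat.Agent.S15.Dict.Loc

open Fermat.Agent.S05.XOnly WeierstrassCurve

theorem residue_ne_zero_iff {K : Type*} [Field K] (A : ValuationSubring K) (t : A) :
    IsLocalRing.residue A t ≠ 0 ↔ A.valuation (t : K) = 1 := by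
  rw [Ne, IsLocalRing.residue_eq_zero_iff, ValuationSubring.valuation_lt_one_iff]
  constructor
  · intro h
    exact le_antisymm (A.valuation_le_one t) (not_lt.mp h)
  · intro h
    exact not_lt.mpr h.ge

/-- General form: `V` has coefficients the images of the integers `a_i`. -/
theorem nonsingular_residue_iff {K : Type*} [Field K] (A : ValuationSubring K)
    (W : WeierstrassCurve ℤ) (V : WeierstrassCurve K)
    (ha₁ : V.a₁ = (W.a₁ : K)) (ha₂ : V.a₂ = (W.a₂ : K)) (ha₃ : V.a₃ = (W.a₃ : K))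
    (ha₄ : V.a₄ = (W.a₄ : K)) (ha₆ : V.a₆ = (W.a₆ : K)) {x y : K} (h : V.toAffine.Equation x y)
    (hxA : x ∈ A) (hyA : y ∈ A) :
    (W.map (Int.castRingHom (IsLocalRing.ResidueField A))).toAffine.Nonsingular
      (IsLocalRing.residue A ⟨x, hxA⟩) (IsLocalRing.residue A ⟨y, hyA⟩) ↔
    (A.valuation (2 * y + V.a₁ * x + V.a₃) = 1 ∨
      A.valuation (3 * x ^ 2 + 2 * V.a₂ * x + V.a₄ - V.a₁ * y) = 1) := by
  set X : A := ⟨x, hxA⟩ with hX
  set Y : A := ⟨y, hyA⟩ with hY
  set res := IsLocalRing.residue A with hres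
  set ψ : A := 2 * Y + (W.a₁ : A) * X + (W.a₃ : A) with hψ
  set ω : A := 3 * X ^ 2 + 2 * (W.a₂ : A) * X + (W.a₄ : A) - (W.a₁ : A) * Y with hω
  have hψc : (ψ : K) = 2 * y + V.a₁ * x + V.a₃ := by
    rw [ha₁, ha₃, hψ]
    push_cast
    rfl
  have hωc : (ω : K) = 3 * x ^ 2 + 2 * V.a₂ * x + V.a₄ - V.a₁ * y := by
    rw [ha₁, ha₂, ha₄, hω]
    push_cast
    rfl
  have hEq : Y ^ 2 + (W.a₁ : A) * X * Y + (W.a₃ : A) * Y
      = X ^ 3 + (W.a₂ : A) * X ^ 2 + (W.a₄ : A) * X + (W.a₆ : A) := by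
    apply Subtype.ext
    have := (WeierstrassCurve.Affine.equation_iff _ _).mp h
    push_cast
    rw [← ha₁, ← ha₂, ← ha₃, ← ha₄, ← ha₆]
    exact this
  rw [← hψc, ← hωc, ← residue_ne_zero_iff, ← residue_ne_zero_iff]
  rw [WeierstrassCurve.Affine.nonsingular_iff, WeierstrassCurve.Affine.equation_iff]
  simp only [WeierstrassCurve.map_a₁, WeierstrassCurve.map_a₂, WeierstrassCurve.map_a₃,
    WeierstrassCurve.map_a₄, WeierstrassCurve.map_a₆, eq_intCast]
  have hE := congrArg res hEq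
  simp only [map_add, map_mul, map_pow, map_intCast] at hE
  have e1 : res ψ = 2 * res Y + (W.a₁ : IsLocalRing.ResidueField A) * res X + W.a₃ := by
    rw [hψ]; simp only [map_add, map_mul, map_intCast, map_ofNat]
  have e2 : res ω = 3 * res X ^ 2 + 2 * (W.a₂ : IsLocalRing.ResidueField A) * res X + W.a₄
      - W.a₁ * res Y := by
    rw [hω]; simp only [map_add, map_sub, map_mul, map_pow, map_intCast, map_ofNat]
  rw [e1, e2]
  constructor
  · rintro ⟨-, h1 | h1⟩
    · right
      intro h0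
      exact h1 (by linear_combination -h0)
    · left
      intro h0
      exact h1 (by linear_combination h0)
  · intro h1
    refine ⟨hE, ?_⟩
    rcases h1 with h1 | h1
    · right
      intro h0
      exact h1 (by linear_combination h0)
    · left
      intro h0
      exact h1 (by linear_combination -h0)

theorem inZeroComponentAt_iff_smooth (W : WeierstrassCurve ℤ)
    (A : ValuationSubring (AlgebraicClosure ℚ))
    {P : ((W.map (Int.castRingHom ℚ))⁄(AlgebraicClosure ℚ)).Point} (hP : P ≠ 0)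
    (hx : A.valuation (xc P) ≤ 1) (hy : A.valuation (yc P) ≤ 1) :
    W.InZeroComponentAt A P ↔
      Smooth A.valuation ((W.map (Int.castRingHom ℚ))⁄(AlgebraicClosure ℚ)) P := by
  rcases P with _ | ⟨x, y, h⟩
  · exact absurd rfl hP
  have hxA : x ∈ A := (A.valuation_le_one_iff x).mp hx
  have hyA : y ∈ A := (A.valuation_le_one_iff y).mp hy
  have hcoe : ∀ z : ℤ, algebraMap ℚ (AlgebraicClosure ℚ) (Int.castRingHom ℚ z)
      = (z : AlgebraicClosure ℚ) := fun z => by simp
  have hns := nonsingular_residue_iff A W ((W.map (Int.castRingHom ℚ))⁄(AlgebraicClosure ℚ))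
    (hcoe _) (hcoe _) (hcoe _) (hcoe _) (hcoe _) h.1 hxA hyA
  constructor
  · rintro (h0 | ⟨x', y', h', heq, hc⟩)
    · exact absurd h0 hP
    · obtain ⟨rfl, rfl⟩ := (WeierstrassCurve.Affine.Point.some.injEq ..).mp heq
      rcases hc with hc | ⟨_, _, hc⟩
      · exact absurd hxA hc
      · exact hns.mp hc
  · intro h1
    exact Or.inr ⟨x, y, h, rfl, Or.inr ⟨hxA, hyA, hns.mpr h1⟩⟩

end Fermat.Agent.S15.Dict.Loc
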