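/-
S15 / Dict / Loc : a sum over the nontrivial `N`-th roots of unity (Mathlib only).

`120 ∑_{z^N = 1, z ≠ 1} (6 w² + w) = N⁴ - 1`, `w = z / (1 - z)²`  (this is `E₄` of the `N`-gon:
`1 + 240 ∑ n³ qⁿ/(1-qⁿ)` regularised; it gives `c₄(E/μ_N) ≡ N⁴ c₄(E)` on the nodal fibre).

PROOF SKETCH (valid in EVERY characteristic).  Put `s_k = 1 / (1 - ζ^k)`, `1 ≤ k ≤ N - 1`.  Then
`w_k = s_k² - s_k`, so `6 w² + w = 6 s⁴ - 12 s³ + 7 s² - s`.  The `s_k` are `N - 1` distinct roots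
of `P = T^N - (T - 1)^N = N T^(N-1) - C(N,2) T^(N-2) + C(N,3) T^(N-3) - ...` (degree `N - 1`,
leading coefficient `N ≠ 0` in `F`), because `s_k - 1 = ζ^k s_k`.  Hence `P = N ∏ (T - s_k)` and
the elementary symmetric functions satisfy `N e_i = C(N, i+1)`, so
`2 e₁ = N-1`, `6 e₂ = (N-1)(N-2)`, `24 e₃ = (N-1)(N-2)(N-3)`, `120 e₄ = (N-1)(N-2)(N-3)(N-4)`
(cancel `N`; these hold in `F` as identities between casts).
Newton (`MvPolynomial.psum_eq_mul_esymm_sub_sum`, `MvPolynomial.aeval_esymm_eq_multiset_esymm`,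
`Multiset.prod_X_sub_C_coeff` / `Polynomial.coeff_eq_esymm_roots_of_card`):
`p₁ = e₁`, `p₂ = e₁² - 2e₂`, `p₃ = e₁³ - 3e₁e₂ + 3e₃`, `p₄ = e₁⁴ - 4e₁²e₂ + 2e₂² + 4e₁e₃ - 4e₄`.
Then `120 (6p₄ - 12p₃ + 7p₂ - p₁)` is a polynomial with INTEGER coefficients in
`E₁ = 2e₁, E₂ = 6e₂, E₃ = 24e₃, E₄ = 120e₄`:
`45E₁⁴ - 120E₁²E₂ + 40E₂² + 60E₁E₃ - 24E₄ - 180E₁³ + 360E₁E₂ - 180E₃ + 210E₁² - 280E₂ - 60E₁`
and substituting gives `N⁴ - 1` (`ring`).
(Proofs: helper40; Newton's identities are proved by induction on the finite set, for the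
coefficients of `∏ (1 + s_k X)`.)
-/
import Mathlib

set_option autoImplicit false

namespace Fermat.Agent.S15.Dict.Loc

open Polynomial

/-- Newton's identities up to degree four for the coefficients of a polynomial `∏ (1 + s_k X)`. -/
def RootSum_Rel {F : Type*} [CommRing F] (R : F[X]) (p1 p2 p3 p4 : F) : Prop :=
  R.coeff 0 = 1 ∧ p1 = R.coeff 1 ∧ p2 = R.coeff 1 ^ 2 - 2 * R.coeff 2 ∧
    p3 = R.coeff 1 ^ 3 - 3 * R.coeff 1 * R.coeff 2 + 3 * R.coeff 3 ∧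
    p4 = R.coeff 1 ^ 4 - 4 * R.coeff 1 ^ 2 * R.coeff 2 + 2 * R.coeff 2 ^ 2
      + 4 * R.coeff 1 * R.coeff 3 - 4 * R.coeff 4

theorem RootSum_Rel_step {F : Type*} [CommRing F] {R : F[X]} {p1 p2 p3 p4 : F}
    (h : RootSum_Rel R p1 p2 p3 p4) (a : F) :
    RootSum_Rel ((1 + C a * X) * R) (a + p1) (a ^ 2 + p2) (a ^ 3 + p3) (a ^ 4 + p4) := by
  obtain ⟨h0, h1, h2, h3, h4⟩ := h
  have c0 : ((1 + C a * X) * R).coeff 0 = 1 := by
    rw [add_mul, one_mul, coeff_add, mul_assoc, coeff_C_mul, coeff_X_mul_zero, mul_zero, add_zero,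
      h0]
  have cs : ∀ i, ((1 + C a * X) * R).coeff (i + 1) = R.coeff (i + 1) + a * R.coeff i := by
    intro i
    rw [add_mul, one_mul, coeff_add, mul_assoc, coeff_C_mul, coeff_X_mul]
  have c1 := cs 0
  have c2 := cs 1
  have c3 := cs 2
  have c4 := cs 3
  norm_num at c1 c2 c3 c4
  rw [h0] at c1
  refine ⟨c0, ?_, ?_, ?_, ?_⟩
  · rw [c1, h1]; ring
  · rw [c1, c2, h2]; ring
  · rw [c1, c2, c3, h3]; ring
  · rw [c1, c2, c3, c4, h4]; ring

theorem RootSum_newton {F : Type*} [CommRing F] {ι : Type*} (S : Finset ι) (s : ι → F) :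
    RootSum_Rel (∏ k ∈ S, (1 + C (s k) * X)) (∑ k ∈ S, s k) (∑ k ∈ S, s k ^ 2)
      (∑ k ∈ S, s k ^ 3) (∑ k ∈ S, s k ^ 4) := by
  classical
  induction S using Finset.induction_on with
  | empty =>
    simp only [Finset.prod_empty, Finset.sum_empty]
    refine ⟨coeff_one_zero, ?_, ?_, ?_, ?_⟩ <;> simp [coeff_one]
  | insert a S ha ih =>
    rw [Finset.prod_insert ha, Finset.sum_insert ha, Finset.sum_insert ha, Finset.sum_insert ha,
      Finset.sum_insert ha]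
    exact RootSum_Rel_step ih (s a)

theorem RootSum_prod {F : Type*} [Field F] {N : ℕ} (hN : 0 < N) {ζ : F}
    (hζ : IsPrimitiveRoot ζ N) :
    (X ^ N - 1 : F[X]) = ∏ k ∈ Finset.range N, (X - C (ζ ^ k)) := by
  have hmonic : (X ^ N - C (1 : F)).Monic := monic_X_pow_sub_C (1 : F) hN.ne'
  have hroots : (X ^ N - C (1 : F)).roots = (Multiset.range N).map (fun k => ζ ^ k * 1) :=
    hζ.nthRoots_eq (one_pow N)
  have h := prod_multiset_X_sub_C_of_monic_of_roots_card_eq hmonic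
    (by rw [hroots, natDegree_X_pow_sub_C]; simp)
  rw [hroots, Multiset.map_map] at h
  rw [← C_1, ← h, Finset.prod_eq_multiset_prod, Finset.range_val]
  simp

/-- `(X + 1)^N - 1 = X · D · ∏ (1 + s_k X)`. -/
theorem RootSum_factor {F : Type*} [Field F] {N : ℕ} (hN : 0 < N) {ζ : F}
    (hζ : IsPrimitiveRoot ζ N) :
    ((X + 1) ^ N - 1 : F[X]) = X * (C (∏ k ∈ Finset.Ico 1 N, (1 - ζ ^ k)) *
      ∏ k ∈ Finset.Ico 1 N, (1 + C (1 / (1 - ζ ^ k)) * X)) := by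
  have h := congrArg (fun p : F[X] => p.comp (X + 1)) (RootSum_prod hN hζ)
  simp only [sub_comp, pow_comp, X_comp, one_comp, prod_comp, C_comp] at h
  rw [h, Finset.range_eq_Ico, Finset.prod_eq_prod_Ico_succ_bot hN, map_prod,
    ← Finset.prod_mul_distrib]
  congr 1
  · simp
  · refine Finset.prod_congr rfl fun k hk => ?_
    have hk' := Finset.mem_Ico.1 hk
    have hne : 1 - ζ ^ k ≠ 0 :=
      sub_ne_zero.2 (hζ.pow_ne_one_of_pos_of_lt (by omega) hk'.2).symm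
    rw [mul_add, mul_one, ← mul_assoc, ← C_mul, mul_one_div_cancel hne, C_1, one_mul, C_sub, C_1]
    ring

theorem rootSum {F : Type*} [Field F] {N : ℕ} (hN : 5 ≤ N) {ζ : F} (hζ : IsPrimitiveRoot ζ N) :
    120 * ∑ k ∈ Finset.Ico 1 N,
        (6 * (ζ ^ k / (1 - ζ ^ k) ^ 2) ^ 2 + ζ ^ k / (1 - ζ ^ k) ^ 2) = (N : F) ^ 4 - 1 := by
  have hN0 : 0 < N := by omega
  have hNF : (N : F) ≠ 0 := by
    have : NeZero N := ⟨hN0.ne'⟩
    exact (hζ.neZero' (R := F)).out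
  set s : ℕ → F := fun k => 1 / (1 - ζ ^ k) with hs
  set R : F[X] := ∏ k ∈ Finset.Ico 1 N, (1 + C (s k) * X) with hR
  set D : F := ∏ k ∈ Finset.Ico 1 N, (1 - ζ ^ k) with hD
  have hfac : ((X + 1) ^ N - 1 : F[X]) = X * (C D * R) := RootSum_factor hN0 hζ
  have hco : ∀ i : ℕ, ((N.choose (i + 1) : ℕ) : F) = D * R.coeff i := by
    intro i
    have h := congrArg (fun p : F[X] => p.coeff (i + 1)) hfac
    simp only [coeff_sub, coeff_X_add_one_pow, coeff_X_mul, coeff_C_mul] at h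
    rw [← h, coeff_one, if_neg (by omega), sub_zero]
  obtain ⟨r0, r1, r2, r3, r4⟩ := RootSum_newton (Finset.Ico 1 N) s
  rw [← hR] at r0 r1 r2 r3 r4
  have hDN : D = N := by
    have := hco 0
    rw [r0, mul_one] at this
    rw [← this]
    simp
  obtain ⟨m, rfl⟩ : ∃ m, N = m + 5 := ⟨N - 5, by omega⟩
  have hc2 : 2 * (m + 5).choose 2 = (m + 5) * (m + 4) := by
    have := Nat.descFactorial_eq_factorial_mul_choose (m + 5) 2
    simp [Nat.descFactorial, Nat.factorial] at this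
    linarith
  have hc3 : 6 * (m + 5).choose 3 = (m + 5) * (m + 4) * (m + 3) := by
    have := Nat.descFactorial_eq_factorial_mul_choose (m + 5) 3
    simp [Nat.descFactorial, Nat.factorial] at this
    linarith
  have hc4 : 24 * (m + 5).choose 4 = (m + 5) * (m + 4) * (m + 3) * (m + 2) := by
    have := Nat.descFactorial_eq_factorial_mul_choose (m + 5) 4
    simp [Nat.descFactorial, Nat.factorial] at this
    linarith
  have hc5 : 120 * (m + 5).choose 5 = (m + 5) * (m + 4) * (m + 3) * (m + 2) * (m + 1) := by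
    have := Nat.descFactorial_eq_factorial_mul_choose (m + 5) 5
    simp [Nat.descFactorial, Nat.factorial] at this
    linarith
  have hc2' := congrArg (Nat.cast : ℕ → F) hc2
  have hc3' := congrArg (Nat.cast : ℕ → F) hc3
  have hc4' := congrArg (Nat.cast : ℕ → F) hc4
  have hc5' := congrArg (Nat.cast : ℕ → F) hc5
  have g1 := hco 1
  have g2 := hco 2
  have g3 := hco 3
  have g4 := hco 4
  rw [hDN] at g1 g2 g3 g4
  norm_num at g1 g2 g3 g4
  push_cast at hc2' hc3' hc4' hc5' hNF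
  have e1 : 2 * R.coeff 1 = (m : F) + 4 := by
    apply mul_left_cancel₀ hNF
    linear_combination hc2' - 2 * g1
  have e2 : 6 * R.coeff 2 = ((m : F) + 4) * ((m : F) + 3) := by
    apply mul_left_cancel₀ hNF
    linear_combination hc3' - 6 * g2
  have e3 : 24 * R.coeff 3 = ((m : F) + 4) * ((m : F) + 3) * ((m : F) + 2) := by
    apply mul_left_cancel₀ hNF
    linear_combination hc4' - 24 * g3
  have e4 : 120 * R.coeff 4 = ((m : F) + 4) * ((m : F) + 3) * ((m : F) + 2) * ((m : F) + 1) := by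
    apply mul_left_cancel₀ hNF
    linear_combination hc5' - 120 * g4
  have hterm : ∀ k ∈ Finset.Ico 1 (m + 5),
      6 * (ζ ^ k / (1 - ζ ^ k) ^ 2) ^ 2 + ζ ^ k / (1 - ζ ^ k) ^ 2 =
        6 * s k ^ 4 - 12 * s k ^ 3 + 7 * s k ^ 2 - s k := by
    intro k hk
    have hk' := Finset.mem_Ico.1 hk
    have hne : 1 - ζ ^ k ≠ 0 :=
      sub_ne_zero.2 (hζ.pow_ne_one_of_pos_of_lt (by omega) hk'.2).symm
    simp only [hs]
    field_simp
    ring
  rw [Finset.sum_congr rfl hterm]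
  simp only [Finset.sum_sub_distrib, Finset.sum_add_distrib, ← Finset.mul_sum]
  rw [r1, r2, r3, r4]
  have key : 120 * (6 * (R.coeff 1 ^ 4 - 4 * R.coeff 1 ^ 2 * R.coeff 2 + 2 * R.coeff 2 ^ 2
        + 4 * R.coeff 1 * R.coeff 3 - 4 * R.coeff 4)
      - 12 * (R.coeff 1 ^ 3 - 3 * R.coeff 1 * R.coeff 2 + 3 * R.coeff 3)
      + 7 * (R.coeff 1 ^ 2 - 2 * R.coeff 2) - R.coeff 1) =
      45 * (2 * R.coeff 1) ^ 4 - 120 * (2 * R.coeff 1) ^ 2 * (6 * R.coeff 2)
        + 40 * (6 * R.coeff 2) ^ 2 + 60 * (2 * R.coeff 1) * (24 * R.coeff 3)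
        - 24 * (120 * R.coeff 4) - 180 * (2 * R.coeff 1) ^ 3
        + 360 * (2 * R.coeff 1) * (6 * R.coeff 2) - 180 * (24 * R.coeff 3)
        + 210 * (2 * R.coeff 1) ^ 2 - 280 * (6 * R.coeff 2) - 60 * (2 * R.coeff 1) := by
    ring
  rw [key, e1, e2, e3, e4]
  push_cast
  ring

end Fermat.Agent.S15.Dict.Loc
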