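/-
S15 / Dict / Loc : `c₄` of the quotient by a subgroup of the smooth locus of the nodal fibre is
`≡ N⁴ c₄`, in particular a unit.
-/
import Fermat.Agent.S15.Dict.Loc.RootSum

set_option autoImplicit false

namespace Fermat.Agent.S15.Dict.Loc

theorem C4_res_eq_zero {K : Type*} [Field K] (A : ValuationSubring K) (x : A)
    (h : A.valuation (x : K) < 1) : IsLocalRing.residue A x = 0 := by
  rw [IsLocalRing.residue_eq_zero_iff, A.valuation_lt_one_iff]
  exact h

theorem C4_res_ne_zero {K : Type*} [Field K] (A : ValuationSubring K) (x : A)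
    (h : A.valuation (x : K) = 1) : IsLocalRing.residue A x ≠ 0 := by
  rw [IsLocalRing.residue_ne_zero_iff_isUnit, A.valuation_eq_one_iff]
  exact h

/-- (Proof: work in `k = IsLocalRing.ResidueField A` with `res = IsLocalRing.residue A`;
`A.valuation x ≤ 1 ↔ x ∈ A` (`ValuationSubring.valuation_le_one_iff`),
`res ⟨x, _⟩ = 0 ↔ A.valuation x < 1` (`IsLocalRing.residue_eq_zero_iff`,
`ValuationSubring.valuation_lt_one_iff`).  `ζ = res u` satisfies `ζ^N = 1`, `ζ ≠ 1`, so it is a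
primitive `N`-th root of unity (`orderOf_eq_prime`, `IsPrimitiveRoot.orderOf`), `1 - ζ^k ≠ 0` for
`0 < k < N` (`IsPrimitiveRoot.pow_ne_one_of_pos_of_lt`), `res X_k = res b · w_k`,
`w_k = ζ^k / (1 - ζ^k)²`.  By `rootSum` the residue of the expression is `(res b)² N⁴ ≠ 0`.) -/
theorem val_c4_eq_one {K : Type*} [Field K] (A : ValuationSubring K) {b a₄ u : K} {N : ℕ}
    (hN : N.Prime) (hN5 : 5 ≤ N) (hNv : A.valuation (N : K) = 1) (X : ℕ → K)
    (h₄ : A.valuation a₄ < 1) (hb : A.valuation b = 1)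
    (hu : A.valuation u = 1) (hu1 : A.valuation (u - 1) = 1) (huN : A.valuation (u ^ N - 1) < 1)
    (hXint : ∀ k, 0 < k → k < N → A.valuation (X k) ≤ 1)
    (hX : ∀ k, 0 < k → k < N → A.valuation (X k * (1 - u ^ k) ^ 2 - b * u ^ k) < 1) :
    A.valuation (b ^ 2 - 48 * a₄ +
      120 * ∑ k ∈ Finset.Ico 1 N, (6 * X k ^ 2 + b * X k + 2 * a₄)) = 1 := by
  classical
  set res := IsLocalRing.residue A with hres
  -- the elements of `A`
  let b' : A := ⟨b, (A.valuation_le_one_iff b).1 hb.le⟩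
  let a' : A := ⟨a₄, (A.valuation_le_one_iff a₄).1 h₄.le⟩
  let u' : A := ⟨u, (A.valuation_le_one_iff u).1 hu.le⟩
  let X' : ℕ → A := fun k => if h : A.valuation (X k) ≤ 1 then
    ⟨X k, (A.valuation_le_one_iff _).1 h⟩ else 0
  have hX' : ∀ k ∈ Finset.Ico 1 N, ((X' k : A) : K) = X k := by
    intro k hk
    have hk' := Finset.mem_Ico.1 hk
    simp only [X']
    rw [dif_pos (hXint k (by omega) hk'.2)]
  let E' : A := b' ^ 2 - 48 * a' + 120 * ∑ k ∈ Finset.Ico 1 N, (6 * X' k ^ 2 + b' * X' k + 2 * a')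
  have hE : ((E' : A) : K) = b ^ 2 - 48 * a₄ +
      120 * ∑ k ∈ Finset.Ico 1 N, (6 * X k ^ 2 + b * X k + 2 * a₄) := by
    simp only [E']
    push_cast
    congr 2
    refine Finset.sum_congr rfl fun k hk => ?_
    rw [hX' k hk]
    rfl
  rw [← hE, ← A.valuation_eq_one_iff, ← IsLocalRing.residue_ne_zero_iff_isUnit]
  -- residues
  have ra : res a' = 0 := C4_res_eq_zero A a' h₄
  have rb : res b' ≠ 0 := C4_res_ne_zero A b' hb
  have rN : ((N : ℕ) : IsLocalRing.ResidueField A) ≠ 0 := by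
    have h := C4_res_ne_zero A (N : A) (by push_cast; exact hNv)
    rwa [map_natCast] at h
  set ζ := res u' with hζdef
  have hζN : ζ ^ N = 1 := by
    have h := C4_res_eq_zero A (u' ^ N - 1) (by push_cast; exact huN)
    rw [map_sub, map_pow, map_one, sub_eq_zero] at h
    exact h
  have hζ1 : ζ ≠ 1 := by
    have h := C4_res_ne_zero A (u' - 1) (by push_cast; exact hu1)
    rw [map_sub, map_one] at h
    exact sub_ne_zero.1 h
  have hprim : IsPrimitiveRoot ζ N := by
    have := orderOf_eq_prime (p := N) (hp := ⟨hN⟩) hζN hζ1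
    rw [← this]
    exact IsPrimitiveRoot.orderOf ζ
  have hxk : ∀ k ∈ Finset.Ico 1 N, res (X' k) = res b' * (ζ ^ k / (1 - ζ ^ k) ^ 2) := by
    intro k hk
    have hk' := Finset.mem_Ico.1 hk
    have h := C4_res_eq_zero A (X' k * (1 - u' ^ k) ^ 2 - b' * u' ^ k) (by
      push_cast
      rw [hX' k hk]
      exact hX k (by omega) hk'.2)
    rw [map_sub, map_mul, map_mul, map_pow, map_pow, map_sub, map_one, map_pow, sub_eq_zero] at h
    have hne : (1 - ζ ^ k) ^ 2 ≠ 0 :=
      pow_ne_zero _ (sub_ne_zero.2 (hprim.pow_ne_one_of_pos_of_lt (by omega) hk'.2).symm)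
    rw [← mul_div_assoc, eq_div_iff hne]
    exact h
  have hfinal : res E' = res b' ^ 2 * (N : IsLocalRing.ResidueField A) ^ 4 := by
    have hrs := rootSum (F := IsLocalRing.ResidueField A) hN5 hprim
    simp only [E']
    rw [map_add, map_sub, map_mul, map_mul, map_pow, map_sum, ra, mul_zero, sub_zero]
    have h1 : ∑ k ∈ Finset.Ico 1 N, res (6 * X' k ^ 2 + b' * X' k + 2 * a') =
        res b' ^ 2 * ∑ k ∈ Finset.Ico 1 N,
          (6 * (ζ ^ k / (1 - ζ ^ k) ^ 2) ^ 2 + ζ ^ k / (1 - ζ ^ k) ^ 2) := by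
      rw [Finset.mul_sum]
      refine Finset.sum_congr rfl fun k hk => ?_
      rw [map_add, map_add, map_mul, map_mul, map_mul, map_pow, ra, hxk k hk, map_ofNat]
      ring
    rw [h1, map_ofNat]
    have h2 : (120 : IsLocalRing.ResidueField A) * (res b' ^ 2 * ∑ k ∈ Finset.Ico 1 N,
          (6 * (ζ ^ k / (1 - ζ ^ k) ^ 2) ^ 2 + ζ ^ k / (1 - ζ ^ k) ^ 2)) =
        res b' ^ 2 * ((N : IsLocalRing.ResidueField A) ^ 4 - 1) := by
      rw [← hrs]; ring
    rw [h2]
    ring
  rw [hfinal]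
  exact mul_ne_zero (pow_ne_zero _ rb) (pow_ne_zero _ rN)

end Fermat.Agent.S15.Dict.Loc
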