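/-
S15 / Dict / Loc : the product over the nonzero multiples of a point of prime order does not depend
on the generator (Mathlib only).
-/
import Mathlib

set_option autoImplicit false

namespace Fermat.Agent.S15.Dict.Loc

/-- `k ↦ (k m mod N)` permutes `{1, …, N-1}`.  (Suggested proof: `Finset.prod_bij` /
`Finset.prod_nbij'` with `k ↦ (k * m) % N`, using `(k * m) • Q = ((k * m) % N) • Q`
(`mod_addOrderOf_nsmul`), injectivity from `Nat.Coprime`/`Nat.ModEq.cancel_right_of_coprime`, and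
surjectivity from injectivity on a finite set (`Finset.surj_on_of_inj_on_of_card_le`) or from an
inverse of `m` modulo `N`; or go through `ZMod N` and `Equiv.mulRight₀`.) -/
theorem prod_nsmul_reindex {G : Type*} [AddCommGroup G] {Γ : Type*} [CommMonoid Γ] (f : G → Γ)
    {N : ℕ} (hN : N.Prime) {Q : G} (hQ : addOrderOf Q = N) {m : ℕ} (hm : ¬ N ∣ m) :
    ∏ k ∈ Finset.Ico 1 N, f (k • (m • Q)) = ∏ k ∈ Finset.Ico 1 N, f (k • Q) := by
  have hcop : Nat.Coprime N m := (Nat.Prime.coprime_iff_not_dvd hN).2 hm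
  have hmaps : ∀ k ∈ Finset.Ico 1 N, (k * m) % N ∈ Finset.Ico 1 N := by
    intro k hk
    rw [Finset.mem_Ico] at hk ⊢
    refine ⟨?_, Nat.mod_lt _ hN.pos⟩
    rw [Nat.one_le_iff_ne_zero]
    intro h0
    have h1 : N ∣ k * m := Nat.dvd_of_mod_eq_zero h0
    rcases (Nat.Prime.dvd_mul hN).1 h1 with h2 | h2
    · exact absurd (Nat.le_of_dvd hk.1 h2) (not_le.2 hk.2)
    · exact hm h2
  have hinj : Set.InjOn (fun k => (k * m) % N) (Finset.Ico 1 N : Finset ℕ) := by
    intro k hk l hl hkl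
    rw [Finset.mem_coe, Finset.mem_Ico] at hk hl
    have h1 : k * m ≡ l * m [MOD N] := hkl
    have h2 : k ≡ l [MOD N] := Nat.ModEq.cancel_right_of_coprime hcop h1
    exact Nat.ModEq.eq_of_lt_of_lt h2 hk.2 hl.2
  refine Finset.prod_nbij (fun k => (k * m) % N) hmaps hinj
    (Finset.surjOn_of_injOn_of_card_le _ hmaps hinj le_rfl) ?_
  intro k _
  have h1 : ((k * m) % N) • Q = (k * m) • Q := by
    rw [← hQ]
    exact mod_addOrderOf_nsmul Q (k * m)
  show f (k • (m • Q)) = f (((k * m) % N) • Q)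
  rw [h1, mul_nsmul']

end Fermat.Agent.S15.Dict.Loc
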